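import Fermat.Agent.S17.FC.Main
import Fermat.Agent.S17.Curve.Cone
import Fermat.Agent.S17.Curve.Basic3

/-!
# S17 route F, applications of `FC_le`: second half of the formula (F)   [WP F-BETA2]

`s = sec r c ≠ 0`, `Z(s) = ∑_{j < m} Z_j` (`m = r a`), `T = Z(s)`.  Two families of sections of `mA - T` without common zeros beyond `T`:
`π_q(Z) = ∏_j σ^{Z_j}_{q_j}`  (multidegree `(1,…,1)` in `z_j = x_1(Z_j)`)   and   `s · bas (m - r) γ`  (degree `1` in `c`).
* `beta_le`: `FC_le` with family 2 `= π(z)` on `X = {z | ∀ j, z j ∈ cone 1}` (`isMClosed_cone_pi`; for `z ∈ X` with nonzero blocks,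
  `z j = c_j • x_1(Z_j)`, `T z := sumDiv Z`, `piP_mem`, `exists_evT_piP_ne_zero`, `sig_smul`), family 1 `= sec r c * bas (m - r) γ`.
* `beta_ge`: `FC_le` with family 2 `= sec r c * bas (m - r) γ` on `X = univ`, `T c := Z r (sec r c)`, family 1 `= π(z)`.
* `evT (r + (m-r)) T P (s * bas (m-r) γ) = evT r T P s * x (m-r) P γ` (`evT_mul` with `T' = 0`), a nonzero multiple of `x (m-r) P`; `h_eq_mul`.
-/

set_option autoImplicit false

namespace Fermat.Agent.MW

open AlgebraicCurve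

variable {F : Type*} [Field F] [Algebra Qb F] [S27.IsFF Qb F]

namespace Setup

variable (S : Setup F)

/-- a nonzero section `s` of `rA` lies in `L(rA - Z(s))`. -/
theorem mem_L_sub_Z {r : ℕ} {s : F} (h0 : s ≠ 0) :
    s ∈ riemannRochSpace (r • S.A - S.Z r s) := (S.mem_L_sub_iff h0 _).2 le_rfl

/-- the leading coefficients of `s · bas k γ` along `Z(s)`. -/
theorem evT_mul_bas {r : ℕ} {s : F} (h0 : s ≠ 0) (k : ℕ) (γ : Fin (S.n k)) (P : Place Qb F) :
    S.evT (r + k) (S.Z r s) P (s * S.bas k γ) = S.evT r (S.Z r s) P s * S.x k P γ := by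
  have h := S.evT_mul (S.mem_L_sub_Z (r := r) h0) (S.mem_V_iff_sub_zero.1 (S.bas_mem k γ)) P
  rw [add_zero] at h
  exact h

theorem evT_Z_ne_zero {r : ℕ} {s : F} (h0 : s ≠ 0) (P : Place Qb F) :
    S.evT r (S.Z r s) P s ≠ 0 := (S.evT_ne_zero_iff h0 (S.mem_L_sub_Z h0) P).2 rfl

theorem mul_bas_mem_L_sub_Z {r : ℕ} {s : F} (h0 : s ≠ 0) (k : ℕ) (γ : Fin (S.n k)) :
    s * S.bas k γ ∈ riemannRochSpace ((r + k) • S.A - S.Z r s) := by
  have h := S27.FFBase.mul_mem_L (S.mem_L_sub_Z (r := r) h0) (S.mem_V_iff_sub_zero.1 (S.bas_mem k γ))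
  convert h using 2
  rw [add_smul]
  abel

/-- [F-BETA2] -/
theorem beta_ge (r : ℕ) : ∃ C : ℝ, ∀ c : Fin (S.n r) → Qb, c ≠ 0 →
    ∀ Z : Fin (r * S.a) → Place Qb F, S27.sumDiv Z = S.Z r (S.sec r c) → ∀ P : Place Qb F,
      habs (fun q : Fin (r * S.a) → Fin (S.n 1) × Fin (S.n 1) =>
          S.evT (Fintype.card (Fin (r * S.a))) (S27.sumDiv Z) P (S.piP Z q)) - ∑ j, S.h 1 (Z j) ≤
        ((r * S.a : ℕ) - r : ℝ) * S.h 1 P - habs c + C := by
  set m := r * S.a with hm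
  have hrm : r ≤ m := by
    have := S.ha
    rw [hm]
    exact Nat.le_mul_of_pos_right r (by omega)
  obtain ⟨C, hC⟩ := S.FC_le (L := Unit) (L' := Fin m) (ι := fun _ => Fin (S.n r))
    (ι' := fun _ => Fin (S.n 1)) (α := Fin m → Fin (S.n 1) × Fin (S.n 1)) (β := Fin (S.n (m - r)))
    (Fintype.card (Fin m)) (r + (m - r)) m (fun _ => 1) ((fun _ => 1) + 0)
    (fun q z => S.piv z q) (fun q => S.isMHSec_piv q)
    (fun γ z => S.sec r (z ()) * S.bas (m - r) γ)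
    (fun γ => (S.isMHSec_sec r).mul (IsMHSec.const (S.bas_mem (m - r) γ)))
    Set.univ IsMClosed.univ (fun z => S.Z r (S.sec r (z ())))
    (fun z _ hz => by
      have h0 : S.sec r (z ()) ≠ 0 := fun h => hz () (S.sec_eq_zero_iff.1 h)
      refine ⟨S.Z_nonneg (S.sec_mem r _) h0, ?_, fun γ => S.mul_bas_mem_L_sub_Z h0 _ γ, fun P => ?_⟩
      · rw [S.degree_Z r h0, hm]
        push_cast
        rfl
      · obtain ⟨γ, hγ⟩ := Function.ne_iff.1 (S.x_ne_zero (m - r) P)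
        refine ⟨γ, ?_⟩
        rw [S.evT_mul_bas h0]
        exact mul_ne_zero (S.evT_Z_ne_zero h0 P) hγ)
  obtain ⟨C₁, hC₁⟩ := S.h_eq_mul (m - r)
  refine ⟨C + C₁, fun c hc Z hZ P => ?_⟩
  have h0 : S.sec r c ≠ 0 := fun h => hc (S.sec_eq_zero_iff.1 h)
  have key := hC (fun _ => c) (Set.mem_univ _) (fun _ => hc) (fun j => S.x 1 (Z j))
    (fun j => S.x_ne_zero 1 (Z j))
    (fun q => by
      have := S.piP_mem Z q
      rw [hZ] at this
      exact this) P
    (by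
      obtain ⟨q, hq⟩ := S.exists_evT_piP_ne_zero Z P
      rw [hZ] at hq
      exact Function.ne_iff.2 ⟨q, hq⟩)
  have e2 : (fun γ : Fin (S.n (m - r)) =>
      S.evT (r + (m - r)) (S.Z r (S.sec r c)) P (S.sec r c * S.bas (m - r) γ)) =
      S.evT r (S.Z r (S.sec r c)) P (S.sec r c) • S.x (m - r) P := by
    funext γ
    rw [S.evT_mul_bas h0]
    rfl
  beta_reduce at key
  rw [e2, habs_smul _ (S.evT_Z_ne_zero h0 P)] at key
  have h1 := (abs_le.1 (hC₁ P)).2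
  rw [hZ]
  have e3 : habs (S.x (m - r) P) = S.h (m - r) P := rfl
  rw [e3] at key
  have e4 : (fun q : Fin m → Fin (S.n 1) × Fin (S.n 1) =>
      S.evT (Fintype.card (Fin m)) (S.Z r (S.sec r c)) P (S.piP Z q)) =
      fun q => S.evT (Fintype.card (Fin m)) (S.Z r (S.sec r c)) P (S.piv (fun j => S.x 1 (Z j)) q) := rfl
  rw [e4]
  have e5 : ∑ l : Fin m, ((1 : ℕ) : ℝ) * habs (S.x 1 (Z l)) = ∑ j, S.h 1 (Z j) := by
    simp [Setup.h]
  rw [e5] at key
  simp only [Fintype.card_fin, Finset.univ_unique, Finset.sum_singleton, Pi.add_apply, Pi.zero_apply,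
    add_zero, Nat.cast_one, one_mul] at key ⊢
  have e6 : ((r + (m - r) : ℕ) : ℝ) = m := by
    rw [Nat.add_sub_cancel' hrm]
  have e7 : ((m - r : ℕ) : ℝ) = (m : ℝ) - r := by
    rw [Nat.cast_sub hrm]
  rw [e6] at key
  rw [e7] at h1
  linarith

end Setup

end Fermat.Agent.MW
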