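import Fermat.Agent.S17.Apps.Beta1
import Fermat.Agent.S17.Apps.Beta2

/-!
# S17 route F: the formula (F)   [WP F-F]
-/

set_option autoImplicit false

namespace Fermat.Agent.MW

open AlgebraicCurve

variable {F : Type*} [Field F] [Algebra Qb F] [S27.IsFF Qb F]

namespace Setup

variable (S : Setup F)

/-- [F-F] **the formula (F)**, valid for ALL places `P` thanks to the tangent line convention:
`∑_{Z ∈ Z(s)} hD(Z, P) = habs(s) + r h_1(P) + O(1)`.
Proof: `Z r (sec r c) = sumDiv Z`, `Z : Fin (r a) → Place` (`exists_eq_sumDiv'`, `Z_nonneg`, `degree_Z`); `I_sumDiv_left`, `I_single_single`: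
`I (sumDiv Z) (single P 1) = ∑_j hD (Z j) P`; `habs_evT_piP Z P` expresses `habs (evT … (piP Z q))_q` as `∑_j habs (sct P (Z j))`
`= ∑_j (h_1 P + h_1 (Z j) - hD P (Z j))`; `beta_le`, `beta_ge`, `hD_comm`. -/
theorem F_formula (r : ℕ) : ∃ C : ℝ, ∀ c : Fin (S.n r) → Qb, c ≠ 0 → ∀ P : Place Qb F,
    |S.I (S.Z r (S.sec r c)) (Finsupp.single P 1) - (habs c + r * S.h 1 P)| ≤ C := by
  sorry

end Setup

end Fermat.Agent.MW
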