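import Fermat.Agent.S17.FC.Main
import Fermat.Agent.S17.Curve.Cone
import Fermat.Agent.S17.Curve.Basic3

/-!
# S17 route F, applications of `FC_le`: first half of the formula (F)   [WP F-BETA1]

`s = sec r c ≠ 0`, `Z(s) = ∑_{j < m} Z_j` (`m = r a`), `T = Z(s)`.  Two families of sections of `mA - T` without common zeros beyond `T`:
`π_q(Z) = ∏_j σ^{Z_j}_{q_j}`  (multidegree `(1,…,1)` in `z_j = x_1(Z_j)`)   and   `s · bas (m - r) γ`  (degree `1` in `c`).
* `beta_le`: `FC_le` with family 2 `= π(z)` on `X = {z | ∀ j, z j ∈ cone 1}` (`isMClosed_cone_pi`; for `z ∈ X` with nonzero blocks,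
  `z j = c_j • x_1(Z_j)`, `T z := sumDiv Z`, `piP_mem`, `exists_evT_piP_ne_zero`, `sig_smul`), family 1 `= sec r c * bas (m - r) γ`.
* `beta_ge`: `FC_le` with family 2 `= sec r c * bas (m - r) γ` on `X = univ`, `T c := Z r (sec r c)`, family 1 `= π(z)`.
* `evT (r + (m-r)) T P (s * bas (m-r) γ) = evT r T P s * x (m-r) P γ` (`evT_mul` with `T' = 0`), a nonzero multiple of `x (m-r) P`; `h_eq_mul`.
-/

set_option autoImplicit false

namespace Fermat.Agent.MW

open AlgebraicCurve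

variable {F : Type*} [Field F] [Algebra Qb F] [S27.IsFF Qb F]

namespace Setup

variable (S : Setup F)

open Classical in
/-- the place under a nonzero point of the cone (junk `Pinf` otherwise). -/
noncomputable def plOf (v : Fin (S.n 1) → Qb) : Place Qb F :=
  if h : ∃ (P : Place Qb F) (c : Qb), v = c • S.x 1 P then h.choose else S.Pinf

theorem exists_eq_smul_plOf {v : Fin (S.n 1) → Qb} (hv : v ∈ S.cone 1) (h0 : v ≠ 0) :
    ∃ c : Qb, c ≠ 0 ∧ v = c • S.x 1 (S.plOf v) := by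
  have h : ∃ (P : Place Qb F) (c : Qb), v = c • S.x 1 P := hv.resolve_left h0
  obtain ⟨c, hc⟩ := h.choose_spec
  refine ⟨c, ?_, ?_⟩
  · rintro rfl
    rw [zero_smul] at hc
    exact h0 hc
  · unfold plOf
    rw [dif_pos h]
    exact hc

theorem plOf_x (P : Place Qb F) : S.plOf (S.x 1 P) = P := by
  obtain ⟨c, -, hc⟩ := S.exists_eq_smul_plOf (v := S.x 1 P) (Or.inr ⟨P, 1, (one_smul _ _).symm⟩)
    (S.x_ne_zero 1 P)
  exact (S.x_injective hc).symm

theorem piv_smul {J : Type*} [Fintype J] (c : J → Qb) (z : J → Fin (S.n 1) → Qb)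
    (q : J → Fin (S.n 1) × Fin (S.n 1)) :
    S.piv (fun j => c j • z j) q = (∏ j, c j) • S.piv z q := by
  unfold piv
  simp only [S.sig_smul]
  rw [Finset.prod_smul]

/-- the family `s · bas (m') γ`, leading coefficients along `Z(s)`. -/
theorem evT_sec_mul_bas (r m' : ℕ) {c : Fin (S.n r) → Qb} (hc : c ≠ 0) (P : Place Qb F) :
    (∀ γ, S.sec r c * S.bas m' γ ∈ riemannRochSpace ((r + m') • S.A - S.Z r (S.sec r c))) ∧
    ∃ t : Qb, t ≠ 0 ∧ (fun γ => S.evT (r + m') (S.Z r (S.sec r c)) P (S.sec r c * S.bas m' γ)) =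
      t • S.x m' P := by
  have hs0 : S.sec r c ≠ 0 := fun h => hc (S.sec_eq_zero_iff.1 h)
  have hs : S.sec r c ∈ riemannRochSpace (r • S.A - S.Z r (S.sec r c)) :=
    (S.mem_L_sub_iff hs0 _).2 le_rfl
  have hb : ∀ γ, S.bas m' γ ∈ riemannRochSpace (m' • S.A - 0) := fun γ =>
    S.mem_V_iff_sub_zero.1 (S.bas_mem m' γ)
  refine ⟨fun γ => ?_, S.evT r (S.Z r (S.sec r c)) P (S.sec r c), ?_, ?_⟩
  · have := S27.FFBase.mul_mem_L hs (hb γ)
    have e : r • S.A - S.Z r (S.sec r c) + (m' • S.A - 0) =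
        (r + m') • S.A - S.Z r (S.sec r c) := by
      rw [add_smul]; abel
    rwa [e] at this
  · exact (S.evT_ne_zero_iff hs0 hs P).2 rfl
  · funext γ
    have := S.evT_mul hs (hb γ) P
    rw [add_zero] at this
    rw [this]
    rfl

/-- [F-BETA1] -/
theorem beta_le (r : ℕ) : ∃ C : ℝ, ∀ c : Fin (S.n r) → Qb, c ≠ 0 →
    ∀ Z : Fin (r * S.a) → Place Qb F, S27.sumDiv Z = S.Z r (S.sec r c) → ∀ P : Place Qb F,
      ((r * S.a : ℕ) - r : ℝ) * S.h 1 P - habs c ≤
        habs (fun q : Fin (r * S.a) → Fin (S.n 1) × Fin (S.n 1) =>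
          S.evT (Fintype.card (Fin (r * S.a))) (S27.sumDiv Z) P (S.piP Z q)) - ∑ j, S.h 1 (Z j) + C := by
  set m := r * S.a with hm
  have hrm : r ≤ m := by
    have := S.ha
    rw [hm]
    nlinarith
  have hU : ∀ γ : Fin (S.n (m - r)), S.IsMHSec (L := Unit) (ι := fun _ => Fin (S.n r)) (r + (m - r))
      (fun _ => 1) (fun w => S.sec r (w ()) * S.bas (m - r) γ) := by
    intro γ
    have := (S.isMHSec_sec r).mul
      (IsMHSec.const (S := S) (L := Unit) (ι := fun _ => Fin (S.n r)) (S.bas_mem (m - r) γ))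
    rwa [add_zero] at this
  obtain ⟨C, hC⟩ := S.FC_le (L := Fin m) (L' := Unit) (ι := fun _ => Fin (S.n 1))
    (ι' := fun _ => Fin (S.n r)) (r + (m - r)) (Fintype.card (Fin m)) m (fun _ => 1) (fun _ => 1)
    (fun (γ : Fin (S.n (m - r))) w => S.sec r (w ()) * S.bas (m - r) γ) hU
    (fun (q : Fin m → Fin (S.n 1) × Fin (S.n 1)) z => S.piv z q) (fun q => S.isMHSec_piv q)
    {z | ∀ j, z j ∈ S.cone 1} (S.isMClosed_cone_pi (Fin m) le_rfl)
    (fun z => S27.sumDiv fun j => S.plOf (z j))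
    (by
      intro z hz hz0
      choose t ht0 ht using fun j => S.exists_eq_smul_plOf (hz j) (hz0 j)
      have hzt : z = fun j => t j • S.x 1 (S.plOf (z j)) := funext ht
      have hpiv : ∀ q, S.piv z q = (∏ j, t j) • S.piP (fun j => S.plOf (z j)) q := by
        intro q
        conv_lhs => rw [hzt]
        exact S.piv_smul t _ q
      have htp : (∏ j, t j) ≠ 0 := Finset.prod_ne_zero_iff.2 fun j _ => ht0 j
      refine ⟨S27.NS.sumDiv_nonneg _, ?_, fun q => ?_, fun P => ?_⟩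
      · rw [S27.degree_sumDiv, Fintype.card_fin]
      · rw [hpiv]
        exact Submodule.smul_mem _ _ (S.piP_mem _ q)
      · obtain ⟨q, hq⟩ := S.exists_evT_piP_ne_zero (fun j => S.plOf (z j)) P
        refine ⟨q, ?_⟩
        rw [hpiv, S.evT_smul _ (S.piP_mem _ q) P]
        exact mul_ne_zero htp hq)
  obtain ⟨C', hC'⟩ := S.h_eq_mul (m - r)
  refine ⟨C + C', fun c hc Z hZ P => ?_⟩
  have hTz : (S27.sumDiv fun j => S.plOf (S.x 1 (Z j))) = S.Z r (S.sec r c) := by
    simp only [S.plOf_x]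
    exact hZ
  obtain ⟨hmem, t, ht0, ht⟩ := S.evT_sec_mul_bas r (m - r) hc P
  have h0 := hC (fun j => S.x 1 (Z j)) (fun j => Or.inr ⟨Z j, 1, (one_smul _ _).symm⟩)
    (fun j => S.x_ne_zero 1 (Z j)) (fun _ => c) (fun _ => hc)
    (by
      intro γ
      simp only [hTz]
      exact hmem γ) P
    (by
      simp only [hTz]
      rw [ht]
      exact smul_ne_zero ht0 (S.x_ne_zero _ P))
  simp only [hTz] at h0
  rw [ht, habs_smul _ ht0] at h0
  rw [← hZ] at h0
  have h1 := (abs_le.1 (hC' P)).1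
  have e1 : habs (S.x (m - r) P) = S.h (m - r) P := rfl
  have e2 : ((r + (m - r) : ℕ) : ℝ) = m := by
    rw [Nat.add_sub_cancel' hrm]
  have e3 : ((m - r : ℕ) : ℝ) = (m : ℝ) - r := by
    rw [Nat.cast_sub hrm]
  have e4 : ((Fintype.card (Fin m) : ℕ) : ℝ) = m := by rw [Fintype.card_fin]
  rw [e1, e2, e4] at h0
  rw [e3] at h1
  simp only [Finset.univ_unique, Finset.sum_singleton, Nat.cast_one, one_mul] at h0
  have e5 : ∀ j, habs (S.x 1 (Z j)) = S.h 1 (Z j) := fun j => rfl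
  simp only [e5] at h0
  have e6 : (fun q : Fin m → Fin (S.n 1) × Fin (S.n 1) =>
      S.evT (Fintype.card (Fin m)) (S27.sumDiv Z) P (S.piv (fun j => S.x 1 (Z j)) q)) =
      fun q => S.evT (Fintype.card (Fin m)) (S27.sumDiv Z) P (S.piP Z q) := rfl
  rw [e6] at h0
  linarith

end Setup

end Fermat.Agent.MW
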