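import Fermat.Agent.S17.Curve.Basic
import Fermat.Agent.S17.Height.Spec

/-!
# S17 route F: wedge of `n - 1` points = the hyperplane through them   [WP F-DUAL]   (linear algebra)

* `wdg_ne_zero_of_finrank`: the linear map `V r → ℚ̄^j`, `f ↦ (ev r (Y i) f)_i` has kernel `L(rA - ∑Y)` (`Y` injective; `evT_eq_zero_iff`), so it has rank
  `n r - l(rA - ∑Y) = j`: the `j × n` matrix `x r (Y i)` has rank `j`, so some `j × j` minor is non zero.
* `habs_wdg_eq`: `j + 1 = n`.  `M = (x r (Y i))` of rank `j = n - 1`, `M c = 0` (`ev_sec`).  The vector of signed maximal minors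
  `μ_k = (-1)^k det (M without column k)` also satisfies `M μ = 0` (Laplace expansion of a determinant with a repeated row), `μ ≠ 0`, so `μ = λ c`.
  The entries of `wdg r Y` (indexed by ALL maps `q : Fin j → Fin n`) are `0` (q not injective) or `± μ_k` (`k` the value omitted by `q`), and every `μ_k` occurs:
  `habs_eq_of_entries`, `habs_smul`.
-/

set_option autoImplicit false

namespace Fermat.Agent.MW

open AlgebraicCurve

variable {F : Type*} [Field F] [Algebra Qb F] [S27.IsFF Qb F]

section LA

variable {K : Type*} [Field K]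

/-- a surjective `j × n` matrix has a non zero `j × j` minor. -/
theorem exists_maxMinor_ne_zero {j n : ℕ} (M : Matrix (Fin j) (Fin n) K)
    (hM : LinearMap.range M.mulVecLin = ⊤) : ∃ q : Fin j → Fin n, (M.submatrix id q).det ≠ 0 := by
  rw [Matrix.range_mulVecLin] at hM
  obtain ⟨f, hf, -, hind⟩ := Submodule.exists_fun_fin_finrank_span_eq K (Set.range M.col)
  have hj : Module.finrank K (Submodule.span K (Set.range M.col)) = j := by
    rw [hM, finrank_top, Module.finrank_fin_fun]
  choose q' hq' using hf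
  refine ⟨fun i => q' (Fin.cast hj.symm i), ?_⟩
  have h1 : LinearIndependent K (M.submatrix id fun i => q' (Fin.cast hj.symm i)).col := by
    have h2 := hind.comp (Fin.cast hj.symm) (Fin.cast_injective _)
    have h3 : (M.submatrix id fun i => q' (Fin.cast hj.symm i)).col = f ∘ Fin.cast hj.symm := by
      funext i
      exact hq' _
    rw [h3]
    exact h2
  exact ((Matrix.isUnit_iff_isUnit_det _).1 (Matrix.linearIndependent_cols_iff_isUnit.1 h1)).ne_zero

/-- the signed maximal minors. -/
noncomputable def sgnMinor {j : ℕ} (M : Matrix (Fin j) (Fin (j + 1)) K) (k : Fin (j + 1)) : K :=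
  (-1) ^ (k : ℕ) * (M.submatrix id k.succAbove).det

theorem mulVec_sgnMinor {j : ℕ} (M : Matrix (Fin j) (Fin (j + 1)) K) :
    M.mulVec (sgnMinor M) = 0 := by
  funext i
  let A : Matrix (Fin (j + 1)) (Fin (j + 1)) K :=
    Matrix.of (Matrix.vecCons (M i) (fun a => M a) : Fin (j + 1) → Fin (j + 1) → K)
  have hA0 : A 0 = M i := rfl
  have hAs : ∀ a : Fin j, A a.succ = M a := fun a => rfl
  have h0 : A.det = 0 := Matrix.det_zero_of_row_eq (i := 0) (j := i.succ) (Fin.succ_ne_zero i).symm
    (by rw [hA0, hAs])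
  rw [Matrix.det_succ_row_zero] at h0
  rw [Pi.zero_apply, ← h0]
  show ∑ k, M i k * sgnMinor M k = _
  refine Finset.sum_congr rfl fun k _ => ?_
  have h1 : A.submatrix Fin.succ k.succAbove = M.submatrix id k.succAbove := by
    ext a b
    rw [Matrix.submatrix_apply, Matrix.submatrix_apply, hAs]
    rfl
  rw [h1, hA0, sgnMinor]
  ring

/-- every minor is `0` or `±` a signed maximal minor. -/
theorem minor_eq_zero_or {j : ℕ} (M : Matrix (Fin j) (Fin (j + 1)) K) (q : Fin j → Fin (j + 1)) :
    (M.submatrix id q).det = 0 ∨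
      ∃ k, (M.submatrix id q).det = sgnMinor M k ∨ (M.submatrix id q).det = - sgnMinor M k := by
  by_cases hq : Function.Injective q
  · right
    obtain ⟨k, hk⟩ : ∃ k, k ∉ Set.range q := by
      by_contra hcon
      push Not at hcon
      have hs : Function.Surjective q := hcon
      have := Fintype.card_le_of_surjective q hs
      simp at this
    have hne : ∀ i, q i ≠ k := fun i h => hk ⟨i, h⟩
    choose p hp using fun i => Fin.exists_succAbove_eq (hne i)
    have hpinj : Function.Injective p := by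
      intro a b hab
      apply hq
      rw [← hp a, ← hp b, hab]
    let σ : Equiv.Perm (Fin j) := Equiv.ofBijective p (Finite.injective_iff_bijective.1 hpinj)
    have h1 : M.submatrix id q = (M.submatrix id k.succAbove).submatrix id σ := by
      ext a b
      simp [σ, hp]
    refine ⟨k, ?_⟩
    rw [h1, Matrix.det_permute', sgnMinor]
    rcases Int.units_eq_one_or (Equiv.Perm.sign σ) with hs | hs <;>
      rcases neg_one_pow_eq_or K (k : ℕ) with hk' | hk' <;> rw [hs, hk'] <;> simp
  · left
    rw [Function.Injective] at hq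
    push Not at hq
    obtain ⟨a, b, hab, hne⟩ := hq
    exact Matrix.det_zero_of_column_eq hne fun i => by simp [hab]

theorem sgnMinor_eq_or {j : ℕ} (M : Matrix (Fin j) (Fin (j + 1)) K) (k : Fin (j + 1)) :
    ∃ q : Fin j → Fin (j + 1), sgnMinor M k = (M.submatrix id q).det ∨
      sgnMinor M k = - (M.submatrix id q).det := by
  refine ⟨k.succAbove, ?_⟩
  rw [sgnMinor]
  rcases neg_one_pow_eq_or K (k : ℕ) with hk' | hk' <;> rw [hk'] <;> simp

/-- if some maximal minor is non zero, the kernel is spanned by the vector of signed minors. -/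
theorem exists_smul_eq_sgnMinor {j : ℕ} (M : Matrix (Fin j) (Fin (j + 1)) K)
    {q₀ : Fin j → Fin (j + 1)} (hq₀ : (M.submatrix id q₀).det ≠ 0) {c : Fin (j + 1) → K} (hc : c ≠ 0)
    (h : M.mulVec c = 0) : ∃ a : K, a ≠ 0 ∧ sgnMinor M = a • c := by
  -- `M` is surjective
  have hsurj : LinearMap.range M.mulVecLin = ⊤ := by
    rw [LinearMap.range_eq_top]
    intro y
    have hu : IsUnit (M.submatrix id q₀) := (Matrix.isUnit_iff_isUnit_det _).2 hq₀.isUnit
    obtain ⟨z, hz⟩ := (Matrix.mulVec_surjective_iff_isUnit.2 hu) y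
    refine ⟨fun k => ∑ i, if q₀ i = k then z i else 0, ?_⟩
    rw [← hz]
    funext a
    simp only [Matrix.mulVecLin_apply, Matrix.mulVec, dotProduct, Matrix.submatrix_apply, id]
    simp only [Finset.mul_sum, mul_ite, mul_zero]
    rw [Finset.sum_comm]
    refine Finset.sum_congr rfl fun i _ => ?_
    simp
  have hker : Module.finrank K (LinearMap.ker M.mulVecLin) = 1 := by
    have h1 := LinearMap.finrank_range_add_finrank_ker M.mulVecLin
    rw [hsurj, finrank_top, Module.finrank_fin_fun, Module.finrank_fin_fun] at h1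
    omega
  have hcmem : c ∈ LinearMap.ker M.mulVecLin := h
  have hμmem : sgnMinor M ∈ LinearMap.ker M.mulVecLin := mulVec_sgnMinor M
  have hc' : (⟨c, hcmem⟩ : LinearMap.ker M.mulVecLin) ≠ 0 := fun h0 => hc (congrArg Subtype.val h0)
  obtain ⟨a, ha⟩ := (finrank_eq_one_iff_of_nonzero' _ hc').1 hker ⟨sgnMinor M, hμmem⟩
  have ha' : a • c = sgnMinor M := congrArg Subtype.val ha
  refine ⟨a, ?_, ha'.symm⟩
  rintro rfl
  rw [zero_smul] at ha'
  rcases minor_eq_zero_or M q₀ with h0 | ⟨k, h0 | h0⟩
  · exact hq₀ h0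
  · exact hq₀ (by rw [h0, ← ha']; rfl)
  · exact hq₀ (by rw [h0, ← ha']; simp)

end LA

namespace Setup

variable (S : Setup F)

/-- the matrix `x r (Y i)`. -/
noncomputable def evMat (r : ℕ) {j : ℕ} (Y : Fin j → Place Qb F) :
    Matrix (Fin j) (Fin (S.n r)) Qb := Matrix.of fun i k => S.x r (Y i) k

theorem wdg_eq_minor (r : ℕ) {j : ℕ} (Y : Fin j → Place Qb F) (q : Fin j → Fin (S.n r)) :
    S.wdg r Y q = ((S.evMat r Y).submatrix id q).det := rfl

theorem evMat_mulVec (r : ℕ) {j : ℕ} (Y : Fin j → Place Qb F) (c : Fin (S.n r) → Qb) (i : Fin j) :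
    (S.evMat r Y).mulVec c i = S.ev r (Y i) (S.sec r c) := by
  rw [ev_sec]
  show ∑ k, S.x r (Y i) k * c k = _
  exact Finset.sum_congr rfl fun k _ => mul_comm _ _

/-- vanishing at distinct points. -/
theorem forall_ev_eq_zero_iff {r j : ℕ} {Y : Fin j → Place Qb F} (hY : Function.Injective Y) {f : F}
    (hf : f ∈ S.V r) :
    (∀ i, S.ev r (Y i) f = 0) ↔ f ∈ riemannRochSpace (r • S.A - S27.sumDiv Y) := by
  classical
  have hf' : f ∈ riemannRochSpace (r • S.A - 0) := by rw [sub_zero]; exact hf
  have h1 : ∀ P, S.ev r P f = 0 ↔ f ∈ riemannRochSpace (r • S.A - Finsupp.single P 1) := by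
    intro P
    have := S.evT_eq_zero_iff hf' P
    rw [sub_zero] at this
    exact this
  by_cases h0 : f = 0
  · subst h0
    exact ⟨fun _ => zero_mem _, fun _ i => (h1 _).2 (zero_mem _)⟩
  simp only [h1, S.mem_L_sub_iff h0]
  constructor
  · intro h P
    by_cases hP : ∃ i, Y i = P
    · obtain ⟨i, rfl⟩ := hP
      have h2 : S27.sumDiv Y (Y i) = 1 := by
        rw [S27.NS.sumDiv_apply, Finset.sum_eq_single i]
        · rw [Finsupp.single_eq_same]
        · intro k _ hk
          exact Finsupp.single_eq_of_ne fun h => hk (hY h).symm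
        · intro h; exact absurd (Finset.mem_univ i) h
      have h3 := h i (Y i)
      rw [Finsupp.single_eq_same] at h3
      rw [h2]
      exact h3
    · push Not at hP
      rw [S27.NS.sumDiv_apply_of_ne Y hP]
      exact S.Z_nonneg hf h0 P
  · intro h i
    refine le_trans ?_ h
    intro P
    by_cases hP : Y i = P
    · subst hP
      rw [Finsupp.single_eq_same]
      exact S27.NS.one_le_sumDiv_apply Y i
    · rw [Finsupp.single_eq_of_ne (Ne.symm hP)]
      exact S27.NS.sumDiv_nonneg Y P

/-- `c ↦ sec r c` as a linear map. -/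
noncomputable def secL (r : ℕ) : (Fin (S.n r) → Qb) →ₗ[Qb] F where
  toFun := S.sec r
  map_add' c c' := by
    simp only [Setup.sec, Pi.add_apply, add_smul, Finset.sum_add_distrib]
  map_smul' a c := by
    simp only [Setup.sec, Pi.smul_apply, smul_eq_mul, mul_smul, Finset.smul_sum, RingHom.id_apply]

theorem secL_injective (r : ℕ) : Function.Injective (S.secL r) := by
  rw [injective_iff_map_eq_zero]
  intro c hc
  exact S.sec_eq_zero_iff.1 hc

theorem map_ker_evMat {r j : ℕ} {Y : Fin j → Place Qb F} (hY : Function.Injective Y) :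
    (LinearMap.ker (S.evMat r Y).mulVecLin).map (S.secL r) =
      riemannRochSpace (r • S.A - S27.sumDiv Y) := by
  ext f
  constructor
  · rintro ⟨c, hc, rfl⟩
    refine (S.forall_ev_eq_zero_iff hY (S.sec_mem r c)).1 fun i => ?_
    rw [← evMat_mulVec]
    exact congrFun hc i
  · intro hf
    have hfV : f ∈ S.V r := S27.L_mono (sub_le_self _ (S27.NS.sumDiv_nonneg Y)) hf
    refine ⟨S.coord r f, ?_, S.sec_coord hfV⟩
    show (S.evMat r Y).mulVec (S.coord r f) = 0
    funext i
    rw [evMat_mulVec, S.sec_coord hfV]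
    exact (S.forall_ev_eq_zero_iff hY hfV).2 hf i

/-- [F-DUAL] independent conditions. -/
theorem wdg_ne_zero_of_finrank {r j : ℕ} {Y : Fin j → Place Qb F} (hY : Function.Injective Y)
    (h : Module.finrank Qb (riemannRochSpace (r • S.A - S27.sumDiv Y)) + j = S.n r) :
    S.wdg r Y ≠ 0 := by
  have h1 : Module.finrank Qb (LinearMap.ker (S.evMat r Y).mulVecLin) =
      Module.finrank Qb (riemannRochSpace (r • S.A - S27.sumDiv Y)) := by
    rw [← S.map_ker_evMat hY]
    exact (Submodule.equivMapOfInjective (S.secL r) (S.secL_injective r) _).finrank_eq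
  have h2 := LinearMap.finrank_range_add_finrank_ker (S.evMat r Y).mulVecLin
  rw [h1, Module.finrank_fin_fun] at h2
  have h3 : Module.finrank Qb (LinearMap.range (S.evMat r Y).mulVecLin) =
      Module.finrank Qb (Fin j → Qb) := by
    rw [Module.finrank_fin_fun]
    omega
  obtain ⟨q, hq⟩ := exists_maxMinor_ne_zero (S.evMat r Y) (Submodule.eq_top_of_finrank_eq h3)
  intro h0
  exact hq (congrFun h0 q)

end Setup

/-- the height of the vector of all maximal minors of a `j × (j+1)` matrix of rank `j` is the height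
of a generator of its kernel. -/
theorem habs_minors_eq {j n : ℕ} (hj : j + 1 = n) (M : Matrix (Fin j) (Fin n) Qb)
    (hW : (fun q : Fin j → Fin n => (M.submatrix id q).det) ≠ 0) {c : Fin n → Qb} (hc : c ≠ 0)
    (h : M.mulVec c = 0) :
    habs (fun q : Fin j → Fin n => (M.submatrix id q).det) = habs c := by
  subst hj
  obtain ⟨q₀, hq₀⟩ := Function.ne_iff.1 hW
  obtain ⟨a, ha, hac⟩ := exists_smul_eq_sgnMinor M hq₀ hc h
  rw [← habs_smul c ha, ← hac]
  exact habs_eq_of_entries (fun q => minor_eq_zero_or M q) (fun k => Or.inr (sgnMinor_eq_or M k))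

namespace Setup

variable (S : Setup F)

/-- [F-DUAL] the wedge of `n - 1` independent points is the coefficient vector of the hyperplane through them. -/
theorem habs_wdg_eq {r j : ℕ} (hj : j + 1 = S.n r) {Y : Fin j → Place Qb F} (hY : S.wdg r Y ≠ 0)
    {c : Fin (S.n r) → Qb} (hc : c ≠ 0) (h : ∀ i, S.ev r (Y i) (S.sec r c) = 0) :
    habs (S.wdg r Y) = habs c := by
  refine habs_minors_eq hj (S.evMat r Y) hY hc ?_
  funext i
  rw [evMat_mulVec]
  exact h i

end Setup

end Fermat.Agent.MW
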