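import Fermat.Agent.S17.Apps.VS

/-!
# S17 route F: the Vandermonde inequality   [WP F-E2]

Induction on `j` with `VS` (`Y = snoc (init Y) (last)`: `Fin.snoc_init_self`; `wdg_init_ne_zero`); bilinearity:
`I(∑Y + P, ∑Y + P) - diag = I(∑Y,∑Y) - diag + 2 ∑_i hD P (Y i)` (`I_add_left/right`, `I_comm`, `I_sumDiv_left`, `I_single_single`,
`S27.sumDiv` of a `snoc`).  `j = 0`: `wdg r Y` is the constant function `1` on a one point type, `habs = 0`.
-/

set_option autoImplicit false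
set_option linter.unusedSectionVars false

namespace Fermat.Agent.MW

open AlgebraicCurve

variable {F : Type*} [Field F] [Algebra Qb F] [S27.IsFF Qb F]

namespace Setup

variable (S : Setup F)

theorem sumDiv_snoc {j : ℕ} (Y : Fin j → Place Qb F) (P : Place Qb F) :
    S27.sumDiv (Fin.snoc Y P : Fin (j + 1) → Place Qb F) = S27.sumDiv Y + Finsupp.single P 1 := by
  unfold S27.sumDiv
  rw [Fin.sum_univ_castSucc]
  simp only [Fin.snoc_castSucc, Fin.snoc_last]

theorem I_snoc {j : ℕ} (Y : Fin j → Place Qb F) (P : Place Qb F) :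
    S.I (S27.sumDiv (Fin.snoc Y P : Fin (j + 1) → Place Qb F))
        (S27.sumDiv (Fin.snoc Y P : Fin (j + 1) → Place Qb F)) =
      S.I (S27.sumDiv Y) (S27.sumDiv Y) + 2 * ∑ i, S.hD P (Y i) + S.hD P P := by
  have h1 : S.I (S27.sumDiv Y) (Finsupp.single P 1) = ∑ i, S.hD P (Y i) := by
    rw [I_sumDiv_left]
    refine Finset.sum_congr rfl fun i _ => ?_
    rw [I_single_single, hD_comm]
    simp
  rw [sumDiv_snoc, I_add_left, I_add_right, I_add_right, S.I_comm (Finsupp.single P 1) (S27.sumDiv Y),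
    h1, I_single_single]
  simp only [Int.cast_one, one_mul]
  ring

/-- [F-E2] **Vandermonde inequality.** -/
theorem E2 (r j : ℕ) : ∃ C : ℝ, ∀ Y : Fin j → Place Qb F, S.wdg r Y ≠ 0 →
    2 * habs (S.wdg r Y) + (S.I (S27.sumDiv Y) (S27.sumDiv Y) - ∑ i, S.hD (Y i) (Y i)) ≤
      2 * r * ∑ i, S.h 1 (Y i) + C := by
  induction j with
  | zero =>
    refine ⟨2 * habs (S.wdg r (Fin.elim0 : Fin 0 → Place Qb F)) +
      (S.I (S27.sumDiv (Fin.elim0 : Fin 0 → Place Qb F)) (S27.sumDiv (Fin.elim0 : Fin 0 → Place Qb F))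
        - ∑ i, S.hD ((Fin.elim0 : Fin 0 → Place Qb F) i) ((Fin.elim0 : Fin 0 → Place Qb F) i)),
      fun Y _ => ?_⟩
    rw [Subsingleton.elim Y Fin.elim0]
    simp
  | succ j ih =>
    obtain ⟨C, hC⟩ := ih
    obtain ⟨C', hC'⟩ := S.VS r j
    refine ⟨C + 2 * C', fun Y' hY' => ?_⟩
    obtain ⟨Y, P, rfl⟩ : ∃ (Y : Fin j → Place Qb F) (P : Place Qb F),
        Y' = (Fin.snoc Y P : Fin (j + 1) → Place Qb F) :=
      ⟨Fin.init Y', Y' (Fin.last j), (Fin.snoc_init_self Y').symm⟩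
    have h1 := hC' Y P hY'
    have h2 := hC Y (S.wdg_init_ne_zero hY')
    rw [I_snoc, Fin.sum_univ_castSucc, Fin.sum_univ_castSucc]
    simp only [Fin.snoc_castSucc, Fin.snoc_last]
    rw [mul_add]
    linarith

end Setup

end Fermat.Agent.MW
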