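import Fermat.Agent.S17.FC.Main
import Fermat.Agent.S17.Curve.Basic3

/-!
# S17 route F: heights attached to a FIXED base point free family   [WP F-FIX]

`T ≥ 0` a fixed divisor, `U : α → F` a fixed finite family in `L(mA - T)` without common zero beyond `T`.  Then
`habs (evT m T P U) = m h_1(P) - I(T, P) + O(1)` for ALL places `P`.
Proof: `T = sumDiv Y`, `Y : Fin t → Place`; `FC_le` twice WITHOUT parameters (`L = L' = Empty`/`PEmpty`, `X = univ`, `IsMHSec.const`) for the two
constant families `U` (in `V m`) and `piP Y q` (in `V t`), both without common zero beyond `T` (`exists_evT_piP_ne_zero`); `habs_evT_piP`.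
-/

set_option autoImplicit false

namespace Fermat.Agent.MW

open AlgebraicCurve

variable {F : Type*} [Field F] [Algebra Qb F] [S27.IsFF Qb F]

namespace Setup

variable (S : Setup F)

theorem habs_evT_fixed {α : Type*} [Fintype α] (m : ℕ) {T : Divisor Qb F} (hT : 0 ≤ T) (U : α → F)
    (hU : ∀ a, U a ∈ riemannRochSpace (m • S.A - T)) (hbpf : ∀ P, ∃ a, S.evT m T P (U a) ≠ 0) :
    ∃ C : ℝ, ∀ P : Place Qb F,
      |habs (fun a => S.evT m T P (U a)) - (m * S.h 1 P - S.I T (Finsupp.single P 1))| ≤ C := by
  sorry

end Setup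

end Fermat.Agent.MW
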