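import Fermat.Agent.S17.Apps.Beta

/-!
# S17 route F: consequences of (F): (COR), (QB)   [WPs F-COR, F-QB]
-/

set_option autoImplicit false

namespace Fermat.Agent.MW

open AlgebraicCurve

variable {F : Type*} [Field F] [Algebra Qb F] [S27.IsFF Qb F]

namespace Setup

variable (S : Setup F)

/-- (F) summed over a divisor `E` of bounded size. (`I_eq_sum_right`, `F_formula`.) -/
theorem F_formula_div (r n : ℕ) : ∃ C : ℝ, ∀ c : Fin (S.n r) → Qb, c ≠ 0 → ∀ E : Divisor Qb F,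
    dnorm E ≤ n →
    |S.I (S.Z r (S.sec r c)) E - ((Divisor.degree E : ℝ) * habs c + r * S.hdiv E)| ≤ C := by
  sorry

/-- [F-COR] `h_1(Z(s)) = a habs(s) + O(1)`.  Proof: compute `I (Z s) (Z s₀)` in two ways (`I_comm`, `F_formula_div`) for a FIXED
`s₀ = sec r c₀`:  `m habs s + r hdiv (Z s₀) = m habs s₀ + r hdiv (Z s) + O(1)`, `m = r a`. -/
theorem hdiv_Z {r : ℕ} (hr : 1 ≤ r) : ∃ C : ℝ, ∀ c : Fin (S.n r) → Qb, c ≠ 0 →
    |S.hdiv (S.Z r (S.sec r c)) - S.a * habs c| ≤ C := by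
  sorry

/-- every function with few zeros and poles is a quotient of two sections of `rA`. -/
theorem exists_sec_div_sec (n : ℕ) : ∃ r : ℕ, ∀ f : F, f ≠ 0 → dnorm (S27.divOf (K := Qb) f) ≤ n →
    ∃ c c' : Fin (S.n r) → Qb, c ≠ 0 ∧ c' ≠ 0 ∧ f * S.sec r c' = S.sec r c := by
  sorry

/-- [F-QB] **(QB)**: the pairing of a principal divisor with a divisor of degree `0` is bounded in terms of the sizes.
`div f = Z(s) - Z(s')`, `I (div f) E = deg E (habs s - habs s') + O(1)`. -/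
theorem QB (n : ℕ) : ∃ C : ℝ, ∀ f : F, f ≠ 0 → ∀ E : Divisor Qb F, Divisor.degree E = 0 →
    dnorm (S27.divOf (K := Qb) f) ≤ n → dnorm E ≤ n → |S.I (S27.divOf (K := Qb) f) E| ≤ C := by
  sorry

end Setup

end Fermat.Agent.MW
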