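import Fermat.Agent.S17.Apps.TauA
import Fermat.Agent.S17.Apps.Fix
import Fermat.Agent.S17.Apps.Beta

/-!
# S17 route F: `a htau - (2a + 2g - 2) h_1` is a height of degree `0`   [WP F-TAU-B]
-/

set_option autoImplicit false

namespace Fermat.Agent.MW

open AlgebraicCurve

variable {F : Type*} [Field F] [Algebra Qb F] [S27.IsFF Qb F]

namespace Setup

variable (S : Setup F)

theorem I_zsmul_left (n : ℤ) (D E : Divisor Qb F) : S.I (n • D) E = n * S.I D E := by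
  have := map_zsmul (AddMonoidHom.mk' (fun D => S.I D E) (fun a b => S.I_add_left a b E)) n D
  simpa using this

/-- [F-TAU-B] `a htau - (2a + 2g - 2) h_1` is the height attached to a divisor `Ξ` of degree `0`.
(`exists_tau_family`, `habs_evT_fixed`: `htau P = m h_1 P - I(T,P) + O(1)`; `F_formula 1` for a fixed `c₀`: `h_1 P = I(Z 1 s₀, P) + O(1)`;
`Ξ := (deg T) • Z 1 s₀ - a • T`.) -/
theorem exists_Xi : ∃ Ξ : Divisor Qb F, Divisor.degree Ξ = 0 ∧ ∃ C : ℝ, ∀ P : Place Qb F,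
    |(S.a : ℝ) * S.htau P - (2 * S.a + 2 * genusFF Qb F - 2 : ℝ) * S.h 1 P
      - S.I Ξ (Finsupp.single P 1)| ≤ C := by
  obtain ⟨m, T, ω, hT, hdeg, hω, hτ⟩ := S.exists_tau_family
  have hbpf : ∀ P, ∃ q, S.evT m T P (ω q) ≠ 0 := by
    intro P
    obtain ⟨c, hc, hq⟩ := hτ P
    obtain ⟨q, hq0⟩ := Function.ne_iff.1 (S.tau_ne_zero P)
    exact ⟨q, by rw [hq]; exact mul_ne_zero hc hq0⟩
  obtain ⟨C1, hC1⟩ := S.habs_evT_fixed m hT ω hω hbpf
  obtain ⟨C2, hC2⟩ := S.F_formula 1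
  set c₀ := S.x 1 S.Pinf with hc₀def
  have hc₀ : c₀ ≠ 0 := S.x_ne_zero 1 _
  set Z₀ := S.Z 1 (S.sec 1 c₀) with hZ₀
  have hZdeg : Divisor.degree Z₀ = S.a := by
    rw [hZ₀, degree_Z _ _ (fun h => hc₀ (S.sec_eq_zero_iff.1 h))]
    simp
  refine ⟨Divisor.degree T • Z₀ - (S.a : ℤ) • T, ?_,
    (S.a : ℝ) * C1 + |(Divisor.degree T : ℝ)| * (C2 + habs c₀), fun P => ?_⟩
  · rw [map_sub, map_zsmul, map_zsmul, hZdeg, smul_eq_mul, smul_eq_mul, mul_comm, sub_self]
  · have h1 := hC1 P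
    have h2 := hC2 c₀ hc₀ P
    have hh : habs (fun q => S.evT m T P (ω q)) = S.htau P := by
      obtain ⟨c, hc, hq⟩ := hτ P
      have : (fun q => S.evT m T P (ω q)) = c • S.tau P := by
        funext q
        rw [hq]; rfl
      rw [this, habs_smul _ hc]
      rfl
    rw [hh] at h1
    rw [I_sub_left, I_zsmul_left, I_zsmul_left]
    have hdT : (Divisor.degree T : ℝ) = (m : ℝ) * S.a - (2 * S.a + 2 * genusFF Qb F - 2) := by
      rw [hdeg]; push_cast; ring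
    set t := S.htau P
    set h := S.h 1 P
    set IT := S.I T (Finsupp.single P 1)
    set IZ := S.I Z₀ (Finsupp.single P 1)
    set dT := (Divisor.degree T : ℝ)
    have e : (S.a : ℝ) * t - (2 * S.a + 2 * genusFF Qb F - 2 : ℝ) * h - (dT * IZ - ((S.a : ℤ) : ℝ) * IT)
        = (S.a : ℝ) * (t - (m * h - IT)) - dT * (IZ - (habs c₀ + (1 : ℕ) * h)) - dT * habs c₀ := by
      have : (2 * S.a + 2 * genusFF Qb F - 2 : ℝ) = (m : ℝ) * S.a - dT := by rw [hdT]; ring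
      rw [this]
      push_cast
      ring
    rw [e]
    have ha0 : (0 : ℝ) ≤ S.a := Nat.cast_nonneg _
    have hc0 : 0 ≤ habs c₀ := habs_nonneg _
    calc |(S.a : ℝ) * (t - (m * h - IT)) - dT * (IZ - (habs c₀ + (1 : ℕ) * h)) - dT * habs c₀|
        ≤ |(S.a : ℝ) * (t - (m * h - IT))| + |dT * (IZ - (habs c₀ + (1 : ℕ) * h))| + |dT * habs c₀| := by
          refine (abs_sub _ _).trans ?_
          gcongr
          exact abs_sub _ _
      _ = (S.a : ℝ) * |t - (m * h - IT)| + |dT| * |IZ - (habs c₀ + (1 : ℕ) * h)| + |dT| * habs c₀ := by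
          rw [abs_mul, abs_mul, abs_mul, abs_of_nonneg ha0, abs_of_nonneg hc0]
      _ ≤ (S.a : ℝ) * C1 + |dT| * C2 + |dT| * habs c₀ := by gcongr
      _ = (S.a : ℝ) * C1 + |dT| * (C2 + habs c₀) := by ring

end Setup

end Fermat.Agent.MW
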