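import Fermat.Agent.S17.Curve.Basic
import Fermat.Agent.S17.Curve.Sig
import Fermat.Agent.RR.Hurwitz

/-!
# S17 route F: the tangent vector is a section of `2A + K`   [WP F-TAU-A]

[F-TAU-A] (differentials; RR/Kaehler, RR/Hurwitz API).  Fix a non constant `t ∈ F`; `Ω[F⁄ℚ̄]` is one dimensional over `F` with basis `dt`
(`RR.finrank_kaehler…`, `RR.D_ne_zero…`).  `ω_{kl} ∈ F` defined by `b_k db_l - b_l db_k = ω_{kl} dt` (`b = bas 1`).  `W := div(dt)`
(`W P = P.ordDifferential (D t)`), `deg W = 2g - 2` (`RR.degree_kaehler`).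
LOCAL LEMMA (LL): `ord_P h ≥ 1`, `u` a uniformiser at `P` ⟹ `dh = e du` with `e` regular at `P`, `val_P e = val_P (h/u)`
[`h = c u + h₂`, `ord_P h₂ ≥ 2`, `RR.ord_sub_one_le_ordDifferential_D`, `RR.ordDifferential_D_of_ord_eq_one`, `RR.ordDifferential_smul`].
With `b̃ = b · loc_P` (regular at `P`): `b̃_k db̃_l - b̃_l db̃_k = loc_P² (b_k db_l - b_l db_k)`, and
`σ^P_{kl} loc_P = b̃_k(P) b̃_l - b̃_l(P) b̃_k =: h_{kl}` vanishes at `P`, `dh_{kl} = b̃_k(P) db̃_l - b̃_l(P) db̃_k`, whose "value at `P`" is the same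
as that of `b̃_k db̃_l - b̃_l db̃_k`.  Hence `tau P (k,l) = val_P (ω_{kl} · loc_P² · (dt/du_P))`, `ord_P (dt/du_P) = W P`.
So `ω_{kl} ∈ L(2A + W)` with leading coefficients `∝ tau P ≠ 0`.  Finally choose `m` large and `φ₀ ≠ 0` in `L(mA - 2A - W)`,
`T := div φ₀ + mA - 2A - W ≥ 0`, `ω'_{kl} := ω_{kl} φ₀ ∈ L(mA - T)`.
-/

set_option autoImplicit false
set_option linter.unusedSectionVars false

namespace Fermat.Agent.MW

open AlgebraicCurve KaehlerDifferential

namespace TauAux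

variable {K F : Type*} [Field K] [Field F] [Algebra K F] [IsAlgClosed K] [CharZero K] [S27.IsFF K F]

theorem mem_ball_zero_iff_adic {v : Place K F} {f : F} :
    f ∈ RR.ball v 0 ↔ v.adicValuation f ≤ 1 := by
  rw [RR.mem_ball_iff, v.adicValuation_le_one_iff, neg_zero]

theorem smul_D_inj {v : Place K F} {u : F} (hu : v.ord u = 1) {e e' : F}
    (h : e • D K F u = e' • D K F u) : e = e' :=
  smul_left_injective F (RR.D_ne_zero_of_ord_eq_one v hu) h

/-- (LL) -/
theorem val_of_D_eq (v : Place K F) {u : F} (hu : v.ord u = 1) {h e : F}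
    (hh : v.adicValuation h < 1) (hD : D K F h = e • D K F u) :
    v.adicValuation e ≤ 1 ∧ S27.val v e = S27.val v (h * u⁻¹) := by
  have h1 := finrank_kaehler_eq_one K F
  have hu0 : u ≠ 0 := by rintro rfl; simp at hu
  have hg : v.adicValuation (h * u⁻¹) ≤ 1 := by
    rw [v.adicValuation_le_one_iff]
    rcases (S27.adic_lt_one_iff_ord v).1 hh with rfl | hpos
    · left; simp
    · have hh0 : h ≠ 0 := by rintro rfl; simp at hpos
      right
      rw [v.ord_mul hh0 (inv_ne_zero hu0), v.ord_inv, hu]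
      omega
  obtain ⟨c, hc, hDg⟩ := RR.exists_D_eq_of_mem h1 v hu (mem_ball_zero_iff_adic.2 hg)
  have hc' := mem_ball_zero_iff_adic.1 hc
  have hhu : h = u * (h * u⁻¹) := by field_simp
  have he : e = u * c + h * u⁻¹ := by
    apply smul_D_inj hu
    rw [← hD]
    conv_lhs => rw [hhu]
    rw [Derivation.leibniz, hDg, smul_smul, add_smul]
  have huc : v.adicValuation (u * c) < 1 := by
    rw [map_mul]
    have hu1 : v.adicValuation u < 1 := (S27.adic_lt_one_iff_ord v).2 (Or.inr (by omega))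
    exact lt_of_le_of_lt (mul_le_of_le_one_right' hc') hu1
  refine ⟨?_, ?_⟩
  · rw [he]
    exact (Valuation.map_add _ _ _).trans (max_le huc.le hg)
  · rw [he, S27.val_add v huc.le hg, (S27.val_eq_zero_iff v huc.le).2 huc, zero_add]

/-- Wronskian of two regular functions -/
theorem exists_wronskian (v : Place K F) {u : F} (hu : v.ord u = 1) {a b : F}
    (ha : v.adicValuation a ≤ 1) (hb : v.adicValuation b ≤ 1) :
    ∃ z : F, a • D K F b - b • D K F a = z • D K F u ∧ v.adicValuation z ≤ 1 ∧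
      S27.val v z = S27.val v ((S27.val v a • b - S27.val v b • a) * u⁻¹) := by
  have h1 := finrank_kaehler_eq_one K F
  obtain ⟨ca, hca, hDa⟩ := RR.exists_D_eq_of_mem h1 v hu (mem_ball_zero_iff_adic.2 ha)
  obtain ⟨cb, hcb, hDb⟩ := RR.exists_D_eq_of_mem h1 v hu (mem_ball_zero_iff_adic.2 hb)
  have hca' := mem_ball_zero_iff_adic.1 hca
  have hcb' := mem_ball_zero_iff_adic.1 hcb
  have hsm : ∀ (c : K) {f : F}, v.adicValuation f ≤ 1 → v.adicValuation (c • f) ≤ 1 := by
    intro c f hf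
    rw [Algebra.smul_def, map_mul]
    exact mul_le_one' (v.adicValuation_algebraMap_le_one c) hf
  have hvs : ∀ (c : K) {f : F}, v.adicValuation f ≤ 1 → S27.val v (c • f) = c * S27.val v f := by
    intro c f hf
    rw [Algebra.smul_def, S27.val_mul v (v.adicValuation_algebraMap_le_one c) hf,
      S27.val_algebraMap]
  have hmul : ∀ {f g : F}, v.adicValuation f ≤ 1 → v.adicValuation g ≤ 1 →
      v.adicValuation (f * g) ≤ 1 := by
    intro f g hf hg
    rw [map_mul]; exact mul_le_one' hf hg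
  have hsub : ∀ {f g : F}, v.adicValuation f ≤ 1 → v.adicValuation g ≤ 1 →
      v.adicValuation (f - g) ≤ 1 := fun hf hg => (Valuation.map_sub _ _ _).trans (max_le hf hg)
  refine ⟨a * cb - b * ca, ?_, hsub (hmul ha hcb') (hmul hb hca'), ?_⟩
  · rw [hDa, hDb, smul_smul, smul_smul, sub_smul]
  · set α := S27.val v a
    set β := S27.val v b
    have hh : v.adicValuation (α • b - β • a) < 1 := by
      rw [← S27.val_eq_zero_iff v (hsub (hsm α hb) (hsm β ha)),
        S27.val_sub v (hsm α hb) (hsm β ha), hvs α hb, hvs β ha]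
      ring
    have hD : D K F (α • b - β • a) = (α • cb - β • ca) • D K F u := by
      rw [map_sub, Derivation.map_smul, Derivation.map_smul, hDa, hDb, sub_smul, smul_assoc, smul_assoc]
    obtain ⟨-, h2⟩ := val_of_D_eq v hu hh hD
    rw [← h2, S27.val_sub v (hsm α hcb') (hsm β hca'), hvs α hcb', hvs β hca',
      S27.val_sub v (hmul ha hcb') (hmul hb hca'), S27.val_mul v ha hcb', S27.val_mul v hb hca']

omit [IsAlgClosed K] [CharZero K] [S27.IsFF K F] in
theorem wronskian_scale (a b l : F) :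
    (a * l) • D K F (b * l) - (b * l) • D K F (a * l) = (l ^ 2) • (a • D K F b - b • D K F a) := by
  rw [Derivation.leibniz, Derivation.leibniz]
  module

end TauAux

variable {F : Type*} [Field F] [Algebra Qb F] [S27.IsFF Qb F]

namespace Setup

variable (S : Setup F)

theorem x_one_eq_val (P : Place Qb F) (i : Fin (S.n 1)) :
    S.x 1 P i = S27.val P (S.bas 1 i * S.loc P) := by
  unfold x ev evT
  simp

theorem adic_bas_mul_loc_le_one (P : Place Qb F) (i : Fin (S.n 1)) :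
    P.adicValuation (S.bas 1 i * S.loc P) ≤ 1 := by
  have := S.adic_evT_le_one (S.mem_V_iff_sub_zero.1 (S.bas_mem 1 i)) P
  simpa using this

theorem tau_eq_val (P : Place Qb F) (q : Fin (S.n 1) × Fin (S.n 1)) :
    S.tau P q = S27.val P ((S.x 1 P q.1 • (S.bas 1 q.2 * S.loc P) -
      S.x 1 P q.2 • (S.bas 1 q.1 * S.loc P)) * (unif P)⁻¹) := by
  unfold tau sct evT sigP sig
  congr 1
  rw [Finsupp.single_eq_same, zpow_neg_one, pow_one, sub_mul, smul_mul_assoc, smul_mul_assoc]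

/-- the local computation: `w λ² e` is regular at `P` with value `tau P q`. -/
theorem val_wronskian (P : Place Qb F) (q : Fin (S.n 1) × Fin (S.n 1)) {w e : F}
    (hw : S.bas 1 q.1 • D Qb F (S.bas 1 q.2) - S.bas 1 q.2 • D Qb F (S.bas 1 q.1) =
      w • e • D Qb F (unif P)) :
    P.adicValuation (w * S.loc P ^ 2 * e) ≤ 1 ∧ S27.val P (w * S.loc P ^ 2 * e) = S.tau P q := by
  obtain ⟨z, hz1, hz2, hz3⟩ := TauAux.exists_wronskian P (ord_unif P)
    (S.adic_bas_mul_loc_le_one P q.1) (S.adic_bas_mul_loc_le_one P q.2)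
  rw [TauAux.wronskian_scale, hw, smul_smul, smul_smul] at hz1
  have hz : w * S.loc P ^ 2 * e = z := by
    rw [← TauAux.smul_D_inj (ord_unif P) hz1]; ring
  rw [hz, S.tau_eq_val, S.x_one_eq_val, S.x_one_eq_val]
  exact ⟨hz2, hz3⟩

/-- [F-TAU-A] -/
theorem exists_tau_family : ∃ (m : ℕ) (T : Divisor Qb F) (ω : Fin (S.n 1) × Fin (S.n 1) → F),
    0 ≤ T ∧ Divisor.degree T = (m : ℤ) * S.a - (2 * S.a + 2 * genusFF Qb F - 2) ∧
    (∀ q, ω q ∈ riemannRochSpace (m • S.A - T)) ∧
    ∀ P : Place Qb F, ∃ c : Qb, c ≠ 0 ∧ ∀ q, S.evT m T P (ω q) = c * S.tau P q := by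
  classical
  have h1 := finrank_kaehler_eq_one Qb F
  obtain ⟨P₀⟩ := RR.IsFF1.nonempty_place (K := Qb) (F := F)
  obtain ⟨ω₀, hω₀⟩ : ∃ ω₀ : Ω[F⁄Qb], ω₀ = D Qb F (unif P₀) := ⟨_, rfl⟩
  have hω₀ne : ω₀ ≠ 0 := hω₀ ▸ RR.D_ne_zero_of_ord_eq_one P₀ (ord_unif P₀)
  have hw : ∀ q : Fin (S.n 1) × Fin (S.n 1), ∃ w : F,
      S.bas 1 q.1 • D Qb F (S.bas 1 q.2) - S.bas 1 q.2 • D Qb F (S.bas 1 q.1) = w • ω₀ :=
    fun q => hω₀ ▸ RR.exists_eq_smul_D h1 P₀ (ord_unif P₀) _
  choose w hw using hw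
  obtain ⟨W, hW⟩ : ∃ W : Divisor Qb F, ∀ v, W v = v.ordDifferential ω₀ :=
    ⟨Finsupp.onFinset (RR.finite_ordDifferential_ne_zero h1 hω₀ne).toFinset
      (fun v => v.ordDifferential ω₀) (fun v hv => by simpa using hv), fun v => rfl⟩
  have hdegW := RR.degree_kaehler h1 hω₀ne hW
  have he : ∀ P : Place Qb F, ∃ e : F, ω₀ = e • D Qb F (unif P) :=
    fun P => RR.exists_eq_smul_D h1 P (ord_unif P) ω₀
  choose e he using he
  have he0 : ∀ P, e P ≠ 0 := by
    intro P h0
    apply hω₀ne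
    rw [he P, h0, zero_smul]
  have heord : ∀ P, P.ord (e P) = W P := by
    intro P
    have := RR.ordDifferential_smul_D h1 P (ord_unif P) (he0 P)
    rw [← he P] at this
    rw [hW, this]
  have hloc : ∀ P q, P.adicValuation (w q * S.loc P ^ 2 * e P) ≤ 1 ∧
      S27.val P (w q * S.loc P ^ 2 * e P) = S.tau P q := by
    intro P q
    apply S.val_wronskian P q
    rw [hw q, ← he P]
  -- the auxiliary section
  have hdegD : Divisor.degree ((2 : ℕ) • S.A - W) = 2 * S.a - (2 * genusFF Qb F - 2) := by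
    rw [map_sub, map_nsmul, S.degree_A, hdegW]
    simp
  have ha : (2 * genusFF Qb F + 2 : ℤ) ≤ S.a := by exact_mod_cast S.ha
  have hrr := finrank_L_eq (K := Qb) (F := F) (D := (2 : ℕ) • S.A - W) (by rw [hdegD]; linarith)
  obtain ⟨φ, hφ0, hφ⟩ := S27.exists_ne_zero_mem_L (K := Qb) (F := F) (D := (2 : ℕ) • S.A - W) (by
    intro h0
    rw [h0, hdegD] at hrr
    push_cast at hrr
    linarith)
  have hφord : ∀ P : Place Qb F, -(2 * S.A P - W P) ≤ P.ord φ := by
    intro P
    have := ((mem_riemannRochSpace_iff.1 hφ) P).resolve_left hφ0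
    simpa using this
  refine ⟨4, S27.divOf (K := Qb) φ + ((2 : ℕ) • S.A - W), fun q => w q * φ, ?_, ?_, ?_, ?_⟩
  · intro P
    have := hφord P
    simp only [Finsupp.coe_zero, Pi.zero_apply, Finsupp.add_apply, S27.divOf_apply,
      Finsupp.sub_apply, Finsupp.smul_apply, nsmul_eq_mul, Nat.cast_ofNat]
    linarith
  · rw [map_add, S27.degree_divOf hφ0, hdegD]
    push_cast
    ring
  · intro q
    rw [mem_riemannRochSpace_iff]
    intro P
    change w q * φ = 0 ∨ _ ≤ P.ord (w q * φ)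
    by_cases hwq : w q = 0
    · left; rw [hwq, zero_mul]
    right
    have h2 := (P.adicValuation_le_one_iff.1 (hloc P q).1).resolve_left
      (mul_ne_zero (mul_ne_zero hwq (pow_ne_zero _ (S.loc_ne_zero P))) (he0 P))
    rw [P.ord_mul (mul_ne_zero hwq (pow_ne_zero _ (S.loc_ne_zero P))) (he0 P),
      P.ord_mul hwq (pow_ne_zero _ (S.loc_ne_zero P)), ← zpow_natCast, P.ord_zpow, S.ord_loc,
      heord] at h2
    rw [P.ord_mul hwq hφ0]
    simp only [Finsupp.add_apply, S27.divOf_apply,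
      Finsupp.sub_apply, Finsupp.smul_apply, nsmul_eq_mul, Nat.cast_ofNat]
    push_cast at h2
    linarith
  · intro P
    set T := S27.divOf (K := Qb) φ + ((2 : ℕ) • S.A - W) with hT
    set s := φ * S.loc P ^ 2 * unif P ^ (-(T P)) * (e P)⁻¹ with hs
    have hs0 : s ≠ 0 := mul_ne_zero (mul_ne_zero (mul_ne_zero hφ0 (pow_ne_zero _ (S.loc_ne_zero P)))
      (zpow_ne_zero _ (unif_ne_zero P))) (inv_ne_zero (he0 P))
    have hsord : P.ord s = 0 := by
      rw [hs, P.ord_mul (mul_ne_zero (mul_ne_zero hφ0 (pow_ne_zero _ (S.loc_ne_zero P)))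
        (zpow_ne_zero _ (unif_ne_zero P))) (inv_ne_zero (he0 P)),
        P.ord_mul (mul_ne_zero hφ0 (pow_ne_zero _ (S.loc_ne_zero P)))
        (zpow_ne_zero _ (unif_ne_zero P)), P.ord_mul hφ0 (pow_ne_zero _ (S.loc_ne_zero P)),
        P.ord_inv, P.ord_zpow, ord_unif, ← zpow_natCast, P.ord_zpow, S.ord_loc, heord, hT]
      simp only [Finsupp.add_apply, S27.divOf_apply,
        Finsupp.sub_apply, Finsupp.smul_apply, nsmul_eq_mul, Nat.cast_ofNat]
      ring
    have hs1 : P.adicValuation s ≤ 1 := P.adicValuation_le_one_iff.2 (Or.inr hsord.ge)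
    refine ⟨S27.val P s, ?_, fun q => ?_⟩
    · rw [Ne, S27.val_eq_zero_iff P hs1, S27.adic_lt_one_iff_ord]
      rintro (h | h)
      · exact hs0 h
      · omega
    · unfold evT
      rw [← (hloc P q).2, ← S27.val_mul P hs1 (hloc P q).1]
      congr 1
      rw [hs]
      have := he0 P
      field_simp

end Setup

end Fermat.Agent.MW
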