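import Fermat.Agent.S17.FC.Main
import Fermat.Agent.S17.Curve.Cone
import Fermat.Agent.S17.Curve.Basic3

/-!
# S17 route F: the Vandermonde step   [WP F-VS]

`VS` (one step): `FC_le` with family 2 `= π_q(z)`, `z ∈ cone^j`, `T z = ∑ Y_i` (as in `beta_le`), `m₂ = j`; family 1 `= U_{q'}(w)`,
`q' : Fin (j+1) → Fin (n r)`, `w : (Fin j → Fin (n r)) → ℚ̄` a FREE parameter (one block, degree 1):
`U_{q'}(w) = ∑_{i' : Fin (j+1)} (-1)^{j+i'} w (q' ∘ i'.succAbove) • bas r (q' i')`  (Laplace expansion along the last row),  `m₁ = r`.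
For `w = wdg r Y`: `ev r P (U_{q'} w) = wdg r (snoc Y P) q'` (`Matrix.det_succ_row`), which vanishes for `P = Y_i` (two equal rows), so
`U_{q'}(w) ∈ L(rA - ∑ Y_i)` as the `Y_i` are distinct.   For `P ∉ Y`: `evT r T P = ev r P`, and `habs_evT_piP`.
-/

set_option autoImplicit false

namespace Fermat.Agent.MW

open AlgebraicCurve

variable {F : Type*} [Field F] [Algebra Qb F] [S27.IsFF Qb F]

namespace Setup

variable (S : Setup F)

theorem injective_of_wdg_ne_zero {r j : ℕ} {Y : Fin j → Place Qb F} (h : S.wdg r Y ≠ 0) :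
    Function.Injective Y := by
  sorry

theorem wdg_init_ne_zero {r j : ℕ} {Y : Fin j → Place Qb F} {P : Place Qb F}
    (h : S.wdg r (Fin.snoc Y P : Fin (j + 1) → Place Qb F) ≠ 0) : S.wdg r Y ≠ 0 := by
  sorry

/-- [F-VS] **Vandermonde step.** -/
theorem VS (r j : ℕ) : ∃ C : ℝ, ∀ (Y : Fin j → Place Qb F) (P : Place Qb F),
    S.wdg r (Fin.snoc Y P : Fin (j + 1) → Place Qb F) ≠ 0 →
    habs (S.wdg r (Fin.snoc Y P : Fin (j + 1) → Place Qb F)) ≤
      habs (S.wdg r Y) + r * S.h 1 P - ∑ i, S.hD P (Y i) + C := by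
  sorry

end Setup

end Fermat.Agent.MW
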