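import Fermat.Agent.S17.Apps.VS
import Fermat.Agent.S17.Apps.E2
import Fermat.Agent.S17.Apps.Dual

/-! # S17 route F: Vandermonde (hub of `VS`, `E2`, `Dual`) -/
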